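import Mathlib
import Fermat.Prelude.Def_GaloisRep_Residual

set_option autoImplicit false
set_option linter.style.haveILetI false

/-! # S31: Frobenius and inertia on roots of unity of order prime to the residue characteristic -/

namespace Fermat.Agent.S31

local notation "Qb" => AlgebraicClosure ℚ
local notation "GQ" => (AlgebraicClosure ℚ ≃ₐ[ℚ] AlgebraicClosure ℚ)

variable (A : ValuationSubring Qb) {ℓ m : ℕ}

theorem mem_of_pow_eq_one {x : Qb} (hm : m ≠ 0) (hx : x ^ m = 1) : x ∈ A := by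
  rw [← A.valuation_le_one_iff]
  by_contra hlt
  rw [not_le] at hlt
  have h1 : A.valuation x ^ m = 1 := by rw [← map_pow, hx, map_one]
  have h2 : 1 < A.valuation x ^ m := one_lt_pow₀ hlt hm
  rw [h1] at h2
  exact lt_irrefl _ h2

theorem natCast_residue_ne_zero (hA : A.LiesOverPrime ℓ) (hℓ : ℓ.Prime) (hne : ¬ ℓ ∣ m) :
    IsLocalRing.residue A (m : A) ≠ 0 := by
  intro h0
  rw [IsLocalRing.residue_eq_zero_iff, ValuationSubring.valuation_lt_one_iff] at h0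
  have h0' : A.valuation (m : Qb) < 1 := by simpa using h0
  have h1 : A.valuation (ℓ : Qb) < 1 := A.mem_nonunits_iff.mp hA
  have hint : ∀ z : ℤ, A.valuation (z : Qb) ≤ 1 := fun z =>
    (A.valuation_le_one_iff _).mpr (intCast_mem A z)
  have hcop : IsCoprime (m : ℤ) (ℓ : ℤ) := by
    rw [Nat.isCoprime_iff_coprime]
    exact ((Nat.Prime.coprime_iff_not_dvd hℓ).2 hne).symm
  obtain ⟨a, b, hab⟩ := hcop
  have h3 : (a : Qb) * m + b * ℓ = 1 := by exact_mod_cast congrArg (Int.cast : ℤ → Qb) hab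
  have h4 : A.valuation ((a : Qb) * m + b * ℓ) < 1 := by
    apply A.valuation.map_add_lt
    · rw [map_mul]
      exact (mul_le_of_le_one_left' (hint a)).trans_lt h0'
    · rw [map_mul]
      exact (mul_le_of_le_one_left' (hint b)).trans_lt h1
  rw [h3, map_one] at h4
  exact lt_irrefl _ h4

/-- reduction is injective on roots of unity of order prime to `ℓ`. -/
theorem eq_of_residue_eq (hA : A.LiesOverPrime ℓ) (hℓ : ℓ.Prime) (hne : ¬ ℓ ∣ m)
    (x y : A) (hx : x ^ m = 1) (hy : y ^ m = 1)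
    (h : IsLocalRing.residue A x = IsLocalRing.residue A y) : x = y := by
  have hm : m ≠ 0 := fun h0 => hne (h0 ▸ dvd_zero ℓ)
  by_contra hxy
  -- `∑ x^i y^(m-1-i) = 0`
  have h1 : (x - y) * ∑ i ∈ Finset.range m, x ^ i * y ^ (m - 1 - i) = 0 := by
    rw [mul_comm, (Commute.all x y).geom_sum₂_mul, hx, hy, sub_self]
  have h2 : ∑ i ∈ Finset.range m, x ^ i * y ^ (m - 1 - i) = 0 :=
    (mul_eq_zero.mp h1).resolve_left (sub_ne_zero.mpr hxy)
  have h3 := congrArg (IsLocalRing.residue A) h2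
  rw [map_sum, map_zero] at h3
  have h4 : ∀ i ∈ Finset.range m, IsLocalRing.residue A (x ^ i * y ^ (m - 1 - i)) =
      IsLocalRing.residue A y ^ (m - 1) := by
    intro i hi
    rw [map_mul, map_pow, map_pow, h, ← pow_add]
    congr 1
    have := Finset.mem_range.mp hi
    omega
  rw [Finset.sum_congr rfl h4, Finset.sum_const, Finset.card_range, nsmul_eq_mul] at h3
  have h5 : IsLocalRing.residue A y ^ (m - 1) ≠ 0 := by
    apply pow_ne_zero
    intro h0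
    have : IsLocalRing.residue A (y ^ m) = 0 := by rw [map_pow, h0, zero_pow hm]
    rw [hy, map_one] at this
    exact one_ne_zero this
  have h6 := (mul_eq_zero.mp h3).resolve_right h5
  apply natCast_residue_ne_zero A hA hℓ hne
  rw [map_natCast]
  exact h6

theorem apply_of_residue (hA : A.LiesOverPrime ℓ) (hℓ : ℓ.Prime) (hne : ¬ ℓ ∣ m)
    (g : A.decompositionSubgroup ℚ) (n : ℕ) (ζ : Qb) (hζ : ζ ^ m = 1)
    (h : ∀ r : IsLocalRing.ResidueField A, g • r = r ^ n) : (g : GQ) ζ = ζ ^ n := by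
  have hm : m ≠ 0 := fun h0 => hne (h0 ▸ dvd_zero ℓ)
  let z : A := ⟨ζ, mem_of_pow_eq_one A hm hζ⟩
  have hz : z ^ m = 1 := Subtype.ext hζ
  have h1 : g • z = z ^ n := by
    apply eq_of_residue_eq A hA hℓ hne
    · rw [← smul_pow', hz, smul_one]
    · rw [← pow_mul, mul_comm, pow_mul, hz, one_pow]
    · rw [IsLocalRing.ResidueField.residue_smul, h, map_pow]
  exact congrArg Subtype.val h1

/-- a Frobenius element at `ℓ` raises roots of unity of order prime to `ℓ` to the `ℓ`-th power. -/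
theorem frobenius_apply_root (hA : A.LiesOverPrime ℓ) (hℓ : ℓ.Prime) (hne : ¬ ℓ ∣ m) {σ : GQ}
    (hσ : A.IsFrobeniusAt σ ℓ) (ζ : Qb) (hζ : ζ ^ m = 1) : σ ζ = ζ ^ ℓ := by
  obtain ⟨hd, hx⟩ := hσ
  exact apply_of_residue A hA hℓ hne ⟨σ, hd⟩ ℓ ζ hζ hx

/-- inertia at `ℓ` fixes the roots of unity of order prime to `ℓ`. -/
theorem inertia_apply_root (hA : A.LiesOverPrime ℓ) (hℓ : ℓ.Prime) (hne : ¬ ℓ ∣ m) {σ : GQ}
    (hσ : σ ∈ A.inertiaSubgroupIn ℚ) (ζ : Qb) (hζ : ζ ^ m = 1) : σ ζ = ζ := by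
  obtain ⟨g, hg, rfl⟩ := hσ
  have h1 : ∀ r : IsLocalRing.ResidueField A, g • r = r ^ 1 := by
    intro r
    have := congrArg (fun f => f r) (MonoidHom.mem_ker.mp hg)
    simpa using this
  have := apply_of_residue A hA hℓ hne g 1 ζ hζ h1
  rwa [pow_one] at this

theorem frobenius_pow_apply_root (hA : A.LiesOverPrime ℓ) (hℓ : ℓ.Prime) (hne : ¬ ℓ ∣ m) {σ : GQ}
    (hσ : A.IsFrobeniusAt σ ℓ) (ζ : Qb) (hζ : ζ ^ m = 1) (j : ℕ) : (σ ^ j) ζ = ζ ^ (ℓ ^ j) := by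
  induction j generalizing ζ with
  | zero => simp
  | succ j ih =>
    rw [pow_succ, AlgEquiv.mul_apply, frobenius_apply_root A hA hℓ hne hσ ζ hζ,
      ih (ζ ^ ℓ) (by rw [← pow_mul, mul_comm, pow_mul, hζ, one_pow]), ← pow_mul, pow_succ, mul_comm]

/-- comparison of two powers of Frobenius elements through their action on `μ_m`. -/
theorem natCast_pow_eq_of_apply_eq {ℓ' : ℕ} (A' : ValuationSubring Qb)
    (hA : A.LiesOverPrime ℓ) (hℓ : ℓ.Prime) (hne : ¬ ℓ ∣ m)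
    (hA' : A'.LiesOverPrime ℓ') (hℓ' : ℓ'.Prime) (hne' : ¬ ℓ' ∣ m) {σ σ' : GQ}
    (hσ : A.IsFrobeniusAt σ ℓ) (hσ' : A'.IsFrobeniusAt σ' ℓ') (ζ : Qb) (hζ : IsPrimitiveRoot ζ m)
    (j j' : ℕ) (h : (σ ^ j) ζ = (σ' ^ j') ζ) : ((ℓ ^ j : ℕ) : ZMod m) = ((ℓ' ^ j' : ℕ) : ZMod m) := by
  rw [frobenius_pow_apply_root A hA hℓ hne hσ ζ hζ.pow_eq_one,
    frobenius_pow_apply_root A' hA' hℓ' hne' hσ' ζ hζ.pow_eq_one] at h
  rw [ZMod.natCast_eq_natCast_iff]
  have hm : m ≠ 0 := fun h0 => hne (h0 ▸ dvd_zero ℓ)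
  obtain ⟨u, rfl⟩ := hζ.isUnit hm
  rw [← Units.val_pow_eq_pow_val, ← Units.val_pow_eq_pow_val, Units.val_inj, pow_eq_pow_iff_modEq,
    ← orderOf_units, ← hζ.eq_orderOf] at h
  exact h

end Fermat.Agent.S31
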