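import Mathlib

set_option autoImplicit false

/-! # S31 [HC] part a: the saturation lemma -/

namespace Fermat.Agent.S31.HC

/-- `p`-saturation of a subgroup of a finitely generated abelian group has bounded exponent. -/
theorem exists_sat {E C : Type} [AddCommGroup E] [Module.Finite ℤ E] [AddCommGroup C]
    (ι : C →+ E) (hι : Function.Injective ι) (p : ℕ) :
    ∃ a : ℕ, ∀ (n : ℕ) (t : C) (x : E), ι t = ((p : ℤ) ^ (n + a)) • x →
      ∃ w : C, t = ((p : ℤ) ^ n) • w := by
  classical
  let Sat : Submodule ℤ E :=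
    { carrier := {x | ∃ k : ℕ, ((p : ℤ) ^ k) • x ∈ ι.range}
      add_mem' := by
        rintro x y ⟨k, hk⟩ ⟨l, hl⟩
        refine ⟨k + l, ?_⟩
        rw [smul_add]
        refine add_mem ?_ ?_
        · rw [pow_add, mul_comm, mul_smul]
          exact zsmul_mem hk _
        · rw [pow_add, mul_smul]
          exact zsmul_mem hl _
      zero_mem' := ⟨0, by rw [smul_zero]; exact zero_mem _⟩
      smul_mem' := by
        rintro c x ⟨k, hk⟩
        refine ⟨k, ?_⟩
        rw [smul_comm]
        exact zsmul_mem hk _ }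
  have hfg : Sat.FG := IsNoetherian.noetherian Sat
  obtain ⟨s, hs⟩ := hfg
  have hsk : ∀ x ∈ s, ∃ k : ℕ, ((p : ℤ) ^ k) • x ∈ ι.range := by
    intro x hx
    have : x ∈ Sat := by rw [← hs]; exact Submodule.subset_span hx
    exact this
  choose! k hk using hsk
  set a := s.sup k with ha
  have hall : ∀ x ∈ Sat, ((p : ℤ) ^ a) • x ∈ ι.range := by
    intro x hx
    rw [← hs] at hx
    induction hx using Submodule.span_induction with
    | mem x hx =>
      have hle : k x ≤ a := Finset.le_sup hx
      obtain ⟨r, hr⟩ := Nat.exists_eq_add_of_le hle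
      rw [hr, pow_add, mul_comm, mul_smul]
      exact zsmul_mem (hk x hx) _
    | zero => rw [smul_zero]; exact zero_mem _
    | add x y _ _ hx hy => rw [smul_add]; exact add_mem hx hy
    | smul c x _ hx => rw [smul_comm]; exact zsmul_mem hx _
  refine ⟨a, fun n t x hx => ?_⟩
  have hxS : x ∈ Sat := ⟨n + a, by rw [← hx]; exact ⟨t, rfl⟩⟩
  obtain ⟨w, hw⟩ := hall x hxS
  refine ⟨w, hι ?_⟩
  rw [hx, map_zsmul, hw, pow_add, mul_smul]

/-- division of an endomorphism of a torsion free group. -/
theorem exists_end_of_forall_smul {Λ : Type} [AddCommGroup Λ] [IsAddTorsionFree Λ]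
    (u : Module.End ℤ Λ) (m : ℤ) (hm : m ≠ 0) (h : ∀ c, ∃ d, u c = m • d) :
    ∃ x : Module.End ℤ Λ, u = m • x := by
  choose x hx using h
  have hinj : Function.Injective fun d : Λ => m • d := zsmul_right_injective hm
  refine ⟨{ toFun := x, map_add' := ?_, map_smul' := ?_ }, ?_⟩
  · intro c d
    apply hinj
    show m • x (c + d) = m • (x c + x d)
    rw [smul_add, ← hx, ← hx, ← hx, map_add]
  · intro r c
    apply hinj
    show m • x (r • c) = m • (r • x c)
    rw [smul_comm, ← hx, ← hx, map_smul]
  · ext c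
    exact hx c

end Fermat.Agent.S31.HC
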