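import Mathlib
import Fermat.Agent.S29.HomPE
import Fermat.Agent.S29.EigRedAbs

set_option autoImplicit false
set_option linter.style.haveILetI false

/-! # S31 [HC] part b: the lattice `Λ = Hom_pe(Γ₀(N), ℤ)` -/

namespace Fermat.Agent.S31.HC

open CongruenceSubgroup Matrix.SpecialLinearGroup
open scoped MatrixGroups TensorProduct
open Fermat.Agent.S29

/-- the integral homomorphisms killing parabolic and elliptic elements. -/
abbrev Lam (N : ℕ) : Type := ↥(peHoms ℤ N ℤ)

variable (N : ℕ)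

theorem hom_ext_of_closure {A : Type} [AddCommGroup A] {S : Set (Gamma0 N)}
    (hS : Subgroup.closure S = ⊤) {c c' : Additive (Gamma0 N) →+ A}
    (h : ∀ s ∈ S, c (Additive.ofMul s) = c' (Additive.ofMul s)) : c = c' := by
  have : ∀ γ : Gamma0 N, γ ∈ Subgroup.closure S → c (Additive.ofMul γ) = c' (Additive.ofMul γ) := by
    intro γ hγ
    induction hγ using Subgroup.closure_induction with
    | mem x hx => exact h x hx
    | one => simp
    | mul x y _ _ hx hy => rw [ofMul_mul, map_add, map_add, hx, hy]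
    | inv x _ hx => rw [ofMul_inv, map_neg, map_neg, hx]
  exact DFunLike.ext _ _ fun γ => this (Additive.toMul γ) (hS ▸ Subgroup.mem_top _)

instance finite_Lam [NeZero N] : Module.Finite ℤ (Lam N) := by
  haveI := fg_Gamma0 N
  obtain ⟨S, hS⟩ := (Group.FG.out : (⊤ : Subgroup (Gamma0 N)).FG)
  let ev : Lam N →ₗ[ℤ] (S → ℤ) :=
    { toFun := fun c s => c.1 (Additive.ofMul s.1)
      map_add' := fun _ _ => rfl
      map_smul' := fun _ _ => rfl }
  refine Module.Finite.of_injective ev ?_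
  intro c c' h
  apply Subtype.ext
  apply hom_ext_of_closure N hS
  intro s hs
  exact congrFun h ⟨s, hs⟩

instance torsionFree_hom : IsAddTorsionFree (Additive (Gamma0 N) →+ ℤ) where
  nsmul_right_injective n hn c c' h := by
    refine DFunLike.ext _ _ fun γ => ?_
    have h1 := DFunLike.congr_fun h γ
    have h2 : n • c γ = n • c' γ := h1
    exact nsmul_right_injective hn h2

instance torsionFree_Lam : IsAddTorsionFree (Lam N) where
  nsmul_right_injective n hn c c' h := by
    apply Subtype.ext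
    have h1 : n • c.1 = n • c'.1 := congrArg Subtype.val h
    exact nsmul_right_injective hn h1

/-- extension of scalars of a homomorphism. -/
noncomputable def iotaC : Lam N →ₗ[ℤ] (Additive (Gamma0 N) →+ ℂ) where
  toFun c := (Int.castAddHom ℂ).comp c.1
  map_add' c c' := by
    refine DFunLike.ext _ _ fun γ => ?_
    show ((c.1 γ + c'.1 γ : ℤ) : ℂ) = (c.1 γ : ℂ) + (c'.1 γ : ℂ)
    push_cast
    rfl
  map_smul' a c := by
    refine DFunLike.ext _ _ fun γ => ?_
    show ((a * c.1 γ : ℤ) : ℂ) = a • ((c.1 γ : ℤ) : ℂ)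
    rw [zsmul_eq_mul]
    push_cast
    rfl

theorem iotaC_apply (c : Lam N) (γ : Additive (Gamma0 N)) : iotaC N c γ = ((c.1 γ : ℤ) : ℂ) := rfl

/-- `ℂ ⊗ Λ → Hom(Γ₀(N), ℂ)`. -/
noncomputable def muC : ℂ ⊗[ℤ] Lam N →ₗ[ℂ] (Additive (Gamma0 N) →+ ℂ) :=
  (iotaC N).liftBaseChange ℂ

theorem muC_tmul (a : ℂ) (c : Lam N) : muC N (a ⊗ₜ c) = a • iotaC N c := rfl

theorem muC_surjective [NeZero N] {c : Additive (Gamma0 N) →+ ℂ} (hc : c ∈ peHoms ℂ N ℂ) :
    ∃ z, muC N z = c := by
  classical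
  haveI := fg_Gamma0 N
  obtain ⟨S, hS⟩ := (Group.FG.out : (⊤ : Subgroup (Gamma0 N)).FG)
  let M : Submodule ℤ ℂ := Submodule.span ℤ ((fun s : Gamma0 N => c (Additive.ofMul s)) '' (S : Set (Gamma0 N)))
  haveI : Module.Finite ℤ M :=
    Module.Finite.of_fg (Submodule.fg_span ((Finset.finite_toSet S).image _))
  have hmem : ∀ γ : Additive (Gamma0 N), c γ ∈ M := by
    have : ∀ γ : Gamma0 N, γ ∈ Subgroup.closure (S : Set (Gamma0 N)) →
        c (Additive.ofMul γ) ∈ M := by
      intro γ hγ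
      induction hγ using Subgroup.closure_induction with
      | mem x hx => exact Submodule.subset_span ⟨x, hx, rfl⟩
      | one => simp
      | mul x y _ _ hx hy => rw [ofMul_mul, map_add]; exact add_mem hx hy
      | inv x _ hx => rw [ofMul_inv, map_neg]; exact neg_mem hx
    exact fun γ => this (Additive.toMul γ) (hS ▸ Subgroup.mem_top _)
  haveI : Module.Free ℤ M := Module.free_of_finite_type_torsion_free'
  let b := Module.Free.chooseBasis ℤ M
  let c' : Additive (Gamma0 N) →+ M :=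
    { toFun := fun γ => ⟨c γ, hmem γ⟩
      map_zero' := Subtype.ext (map_zero c)
      map_add' := fun x y => Subtype.ext (map_add c x y) }
  let ci : Module.Free.ChooseBasisIndex ℤ M → Lam N := fun i =>
    ⟨(b.coord i).toAddMonoidHom.comp c', fun γ hγ => by
      show b.coord i (c' (Additive.ofMul γ)) = 0
      have : c' (Additive.ofMul γ) = 0 := Subtype.ext (hc γ hγ)
      rw [this, map_zero]⟩
  refine ⟨∑ i, ((b i : M) : ℂ) ⊗ₜ[ℤ] ci i, ?_⟩
  refine DFunLike.ext _ _ fun γ => ?_
  rw [map_sum, AddMonoidHom.finsetSum_apply]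
  have h1 : ∀ i, muC N (((b i : M) : ℂ) ⊗ₜ[ℤ] ci i) γ = (((b.repr (c' γ) i) • b i : M) : ℂ) := by
    intro i
    show ((b i : M) : ℂ) * ((b.repr (c' γ) i : ℤ) : ℂ) = _
    rw [Submodule.coe_smul, zsmul_eq_mul, mul_comm]
  rw [Finset.sum_congr rfl fun i _ => h1 i]
  have h2 := b.sum_repr (c' γ)
  have h3 := congrArg (Subtype.val) h2
  rw [AddSubmonoidClass.coe_finsetSum] at h3
  exact h3

variable {N}
variable {l : ℕ} [Fact l.Prime]

/-- the Hecke operator on `Λ`. -/
noncomputable def hL (hl : ¬ l ∣ N) : Module.End ℤ (Lam N) :=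
  (heckeLin ℤ hl).restrict (fun _ hc => heckeHom_mem_peHoms hl hc)

theorem coe_hL (hl : ¬ l ∣ N) (c : Lam N) : ((hL hl c : Lam N) : Additive (Gamma0 N) →+ ℤ) =
    heckeHom hl c.1 := rfl

theorem muC_hL (hl : ¬ l ∣ N) (z : ℂ ⊗[ℤ] Lam N) :
    muC N ((hL hl).baseChange ℂ z) = heckeHom hl (muC N z) := by
  induction z using TensorProduct.induction_on with
  | zero => simp [heckeHom_zero]
  | tmul a c =>
    rw [LinearMap.baseChange_tmul, muC_tmul, muC_tmul, heckeHom_smul]
    congr 1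
    show (Int.castAddHom ℂ).comp (hL hl c).1 = heckeHom hl ((Int.castAddHom ℂ).comp c.1)
    rw [coe_hL, heckeHom_comp]
  | add z₁ z₂ h₁ h₂ => rw [map_add, map_add, map_add, heckeHom_add, h₁, h₂]

end Fermat.Agent.S31.HC
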