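import Mathlib
import Fermat.Agent.S31.HCc
import Fermat.Prelude.Def_CuspForm_HeckeAlgebra

set_option autoImplicit false
set_option linter.style.haveILetI false
set_option synthInstance.maxHeartbeats 400000

/-! # S31 [HC] part d: an operator killing `Hom_pe(Γ₀(N), ℤ/p^(n+a))` lies in `p^n 𝕋` -/

namespace Fermat.Agent.S31.HC

open CongruenceSubgroup Matrix.SpecialLinearGroup Polynomial CuspForm
open scoped MatrixGroups TensorProduct
open Fermat.Agent.S29

variable (N : ℕ) [NeZero N] (S : Set ℕ)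

instance free_Lam : Module.Free ℤ (Lam N) := Module.free_of_finite_type_torsion_free'

/-- the pairs `(T_l on Λ, T_l on cusp forms)`. -/
def gens : Set (Module.End ℤ (Lam N) × heckeAlgebra N 2 S) :=
  {x | ∃ (l : ℕ) (hl : l.Prime) (hlN : ¬ l ∣ N) (hS : l ∉ S),
    x = ((haveI : Fact l.Prime := ⟨hl⟩; hL hlN), heckeAlgebra.T hl hlN hS)}

/-- the algebra generated by the pairs. -/
def CC : Subalgebra ℤ (Module.End ℤ (Lam N) × heckeAlgebra N 2 S) := Algebra.adjoin ℤ (gens N S)

variable {N S}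

theorem CC_compat {x : Module.End ℤ (Lam N) × heckeAlgebra N 2 S} (hx : x ∈ CC N S) :
    ∀ (z : ℂ ⊗[ℤ] Lam N) (g : CuspForm (Gamma0 N) 2), muC N z = pml N g →
      muC N (x.1.baseChange ℂ z) = pml N (x.2.1 g) := by
  induction hx using Algebra.adjoin_induction with
  | mem x hx =>
    obtain ⟨l, hl, hlN, hS, rfl⟩ := hx
    intro z g h
    haveI : Fact l.Prime := ⟨hl⟩
    show muC N ((hL hlN).baseChange ℂ z) = pml N (heckeTLin 2 hl hlN g)
    rw [muC_hL, h, pml_heckeTLin]
  | algebraMap r =>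
    intro z g h
    have e1 : ((algebraMap ℤ (Module.End ℤ (Lam N) × heckeAlgebra N 2 S) r).1).baseChange ℂ z =
        r • z := by
      show ((algebraMap ℤ (Module.End ℤ (Lam N)) r)).baseChange ℂ z = r • z
      rw [Module.algebraMap_end_eq_smul_id, LinearMap.baseChange_smul, LinearMap.baseChange_id]
      rfl
    have e2 : ((algebraMap ℤ (Module.End ℤ (Lam N) × heckeAlgebra N 2 S) r).2).1 g = r • g := by
      show (algebraMap ℤ (Module.End ℂ (CuspForm (Gamma0 N) 2)) r) g = r • g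
      rw [Module.algebraMap_end_apply]
    rw [e1, e2, map_zsmul, map_zsmul, h]
  | add x y _ _ hx hy =>
    intro z g h
    show muC N ((x.1 + y.1).baseChange ℂ z) = pml N ((x.2.1 + y.2.1) g)
    rw [LinearMap.baseChange_add, LinearMap.add_apply, LinearMap.add_apply, map_add, map_add,
      hx z g h, hy z g h]
  | mul x y _ _ hx hy =>
    intro z g h
    show muC N ((x.1 * y.1).baseChange ℂ z) = pml N ((x.2.1 * y.2.1) g)
    rw [LinearMap.baseChange_mul, Module.End.mul_apply, Module.End.mul_apply]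
    exact hx _ _ (hy z g h)

theorem CC_snd_eq_zero {x : Module.End ℤ (Lam N) × heckeAlgebra N 2 S} (hx : x ∈ CC N S)
    (h : x.1 = 0) : x.2 = 0 := by
  apply Subtype.ext
  refine LinearMap.ext fun g => ?_
  obtain ⟨z, hz⟩ := exists_muC_eq_pml g
  have h1 := CC_compat hx z g hz
  rw [h, LinearMap.baseChange_zero, LinearMap.zero_apply, map_zero] at h1
  exact pml_injective (h1.symm.trans (map_zero _).symm)

/-- the first projection. -/
def prL (N : ℕ) [NeZero N] (S : Set ℕ) : CC N S →+ Module.End ℤ (Lam N) where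
  toFun x := x.1.1
  map_zero' := rfl
  map_add' _ _ := rfl

theorem prL_injective : Function.Injective (prL N S) := by
  rw [injective_iff_map_eq_zero]
  intro x hx
  apply Subtype.ext
  exact Prod.ext hx (CC_snd_eq_zero x.2 hx)

section nat

variable {l : ℕ} [Fact l.Prime]

omit [NeZero N] in
/-- naturality in the coefficients. -/
theorem comp_aeval_heckeLin {A B : Type} [AddCommGroup A] [AddCommGroup B] (φ : A →+ B)
    (hl : ¬ l ∣ N) (f : ℤ[X]) (c : Additive (Gamma0 N) →+ A) :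
    φ.comp (aeval (heckeLin ℤ hl : Module.End ℤ (Additive (Gamma0 N) →+ A)) f c) =
      aeval (heckeLin ℤ hl : Module.End ℤ (Additive (Gamma0 N) →+ B)) f (φ.comp c) := by
  induction f using Polynomial.induction_on' with
  | add p q hp hq =>
    rw [map_add, map_add, LinearMap.add_apply, LinearMap.add_apply, ← hp, ← hq]
    exact AddMonoidHom.comp_add φ _ _
  | monomial n a =>
    rw [aeval_monomial, aeval_monomial, Module.End.mul_apply, Module.End.mul_apply,
      Module.algebraMap_end_apply, Module.algebraMap_end_apply]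
    have h1 : ∀ (n : ℕ) (c : Additive (Gamma0 N) →+ A),
        φ.comp (((heckeLin ℤ hl : Module.End ℤ (Additive (Gamma0 N) →+ A)) ^ n) c) =
        ((heckeLin ℤ hl : Module.End ℤ (Additive (Gamma0 N) →+ B)) ^ n) (φ.comp c) := by
      intro n
      induction n with
      | zero => intro c; rfl
      | succ n ih =>
        intro c
        rw [pow_succ, pow_succ, Module.End.mul_apply, Module.End.mul_apply, ih]
        congr 1
        exact (heckeHom_comp hl φ c).symm
    rw [← h1]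
    refine DFunLike.ext _ _ fun γ => ?_
    show φ (a • _) = a • φ _
    rw [map_zsmul]

omit [NeZero N] in
theorem coe_aeval_hL (hl : ¬ l ∣ N) (f : ℤ[X]) (c : Lam N) :
    ((aeval (hL hl) f c : Lam N) : Additive (Gamma0 N) →+ ℤ) =
      aeval (heckeLin ℤ hl : Module.End ℤ (Additive (Gamma0 N) →+ ℤ)) f c.1 := by
  induction f using Polynomial.induction_on' with
  | add p q hp hq =>
    rw [map_add, map_add, LinearMap.add_apply, LinearMap.add_apply, ← hp, ← hq]
    rfl
  | monomial n a =>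
    rw [aeval_monomial, aeval_monomial, Module.End.mul_apply, Module.End.mul_apply,
      Module.algebraMap_end_apply, Module.algebraMap_end_apply]
    have h1 : ∀ (n : ℕ) (c : Lam N), (((hL hl ^ n) c : Lam N) : Additive (Gamma0 N) →+ ℤ) =
        ((heckeLin ℤ hl : Module.End ℤ (Additive (Gamma0 N) →+ ℤ)) ^ n) c.1 := by
      intro n
      induction n with
      | zero => intro c; rfl
      | succ n ih =>
        intro c
        rw [pow_succ, pow_succ, Module.End.mul_apply, Module.End.mul_apply, ih]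
        rfl
    rw [← h1]
    rfl

end nat

omit [NeZero N] in
/-- division of an integral homomorphism. -/
theorem exists_div_hom (D : Lam N) (m : ℤ) (h : ∀ γ, m ∣ D.1 γ) : ∃ d : Lam N, D = m • d := by
  refine ⟨⟨{ toFun := fun γ => D.1 γ / m, map_zero' := by simp, map_add' := ?_ }, ?_⟩, ?_⟩
  · intro x y
    rw [map_add, Int.add_ediv_of_dvd_left (h x)]
  · intro γ hγ
    show D.1 (Additive.ofMul γ) / m = 0
    rw [D.2 γ hγ, Int.zero_ediv]
  · apply Subtype.ext
    refine DFunLike.ext _ _ fun γ => ?_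
    show D.1 γ = m * (D.1 γ / m)
    rw [Int.mul_ediv_cancel' (h γ)]

theorem pair_mem_CC {l : ℕ} (hl : l.Prime) (hlN : ¬ l ∣ N) (hS : l ∉ S) :
    (((haveI : Fact l.Prime := ⟨hl⟩; hL hlN), heckeAlgebra.T hl hlN hS) :
      Module.End ℤ (Lam N) × heckeAlgebra N 2 S) ∈ CC N S :=
  Algebra.subset_adjoin ⟨l, hl, hlN, hS, rfl⟩

theorem aeval_pair_mem {A B : Type} [Ring A] [Ring B] [Algebra ℤ A] [Algebra ℤ B]
    (C : Subalgebra ℤ (A × B)) {P : A × B} (hP : P ∈ C) (f : ℤ[X]) :
    (aeval P.1 f, aeval P.2 f) ∈ C := by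
  have e : (aeval P.1 f, aeval P.2 f) = aeval P f := by
    refine Prod.ext ?_ ?_
    · exact aeval_algHom_apply (AlgHom.fst ℤ A B) P f
    · exact aeval_algHom_apply (AlgHom.snd ℤ A B) P f
  rw [e]
  have h1 : Algebra.adjoin ℤ {P} ≤ C := Algebra.adjoin_le (by simpa using hP)
  exact h1 (aeval_mem_adjoin_singleton ℤ P)

/-- **[HC]** -/
theorem main (N : ℕ) [NeZero N] (S : Set ℕ) (p : ℕ) (hp : p.Prime) :
    ∃ a : ℕ, ∀ (n : ℕ) (l l' : ℕ) [Fact l.Prime] [Fact l'.Prime] (hl : ¬ l ∣ N) (hl' : ¬ l' ∣ N)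
      (hS : l ∉ S) (hS' : l' ∉ S) (f f' : ℤ[X]),
      (∀ c ∈ peHoms (ZMod (p ^ (n + a))) N (ZMod (p ^ (n + a))),
        aeval (heckeLin ℤ hl : Module.End ℤ (Additive (Gamma0 N) →+ ZMod (p ^ (n + a)))) f c =
        aeval (heckeLin ℤ hl' : Module.End ℤ (Additive (Gamma0 N) →+ ZMod (p ^ (n + a)))) f' c) →
      ∃ w : heckeAlgebra N 2 S,
        aeval (heckeAlgebra.T (k := 2) (Fact.out : l.Prime) hl hS) f -
          aeval (heckeAlgebra.T (k := 2) (Fact.out : l'.Prime) hl' hS') f' = ((p : ℤ) ^ n) • w := by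
  obtain ⟨a, ha⟩ := exists_sat (prL N S) prL_injective p
  refine ⟨a, ?_⟩
  intro n l l' _ _ hl hl' hS hS' f f' H
  set m : ℕ := p ^ (n + a) with hm
  let P : Module.End ℤ (Lam N) × heckeAlgebra N 2 S :=
    (hL hl, heckeAlgebra.T (Fact.out : l.Prime) hl hS)
  let P' : Module.End ℤ (Lam N) × heckeAlgebra N 2 S :=
    (hL hl', heckeAlgebra.T (Fact.out : l'.Prime) hl' hS')
  have hP : P ∈ CC N S := pair_mem_CC _ hl hS
  have hP' : P' ∈ CC N S := pair_mem_CC _ hl' hS'
  let X : CC N S := ⟨_, sub_mem (aeval_pair_mem (CC N S) hP f) (aeval_pair_mem (CC N S) hP' f')⟩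
  have hX1 : prL N S X = aeval (hL hl) f - aeval (hL hl') f' := rfl
  have hX2 : (X : Module.End ℤ (Lam N) × heckeAlgebra N 2 S).2 =
      aeval (heckeAlgebra.T (k := 2) (Fact.out : l.Prime) hl hS) f -
          aeval (heckeAlgebra.T (k := 2) (Fact.out : l'.Prime) hl' hS') f' := rfl
  have hm0 : ((p : ℤ) ^ (n + a)) ≠ 0 := pow_ne_zero _ (by exact_mod_cast hp.ne_zero)
  have hdiv : ∀ c : Lam N, ∃ d : Lam N, prL N S X c = ((p : ℤ) ^ (n + a)) • d := by
    intro c
    apply exists_div_hom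
    intro γ
    have hc : (Int.castAddHom (ZMod m)).comp c.1 ∈ peHoms (ZMod m) N (ZMod m) := by
      intro δ hδ
      show ((c.1 (Additive.ofMul δ) : ℤ) : ZMod m) = 0
      rw [c.2 δ hδ, Int.cast_zero]
    have h1 := H _ hc
    rw [← comp_aeval_heckeLin, ← comp_aeval_heckeLin, ← coe_aeval_hL, ← coe_aeval_hL] at h1
    have h2 := DFunLike.congr_fun h1 γ
    have h3 : (((aeval (hL hl) f c : Lam N).1 γ : ℤ) : ZMod m) =
        (((aeval (hL hl') f' c : Lam N).1 γ : ℤ) : ZMod m) := h2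
    rw [hX1]
    show (p : ℤ) ^ (n + a) ∣ (aeval (hL hl) f c : Lam N).1 γ - (aeval (hL hl') f' c : Lam N).1 γ
    have h4 := (ZMod.intCast_eq_intCast_iff_dvd_sub _ _ m).mp h3.symm
    rw [hm] at h4
    exact_mod_cast h4
  obtain ⟨Y, hY⟩ := exists_end_of_forall_smul (prL N S X) _ hm0 hdiv
  obtain ⟨w, hw⟩ := ha n X Y hY
  refine ⟨w.1.2, ?_⟩
  rw [← hX2, hw]
  rfl

end Fermat.Agent.S31.HC
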