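import Mathlib
import Fermat.Agent.S31.HCd

set_option autoImplicit false
set_option linter.style.haveILetI false
set_option synthInstance.maxHeartbeats 400000

/-! # S31 [HC] part e: the general form of the comparison -/

namespace Fermat.Agent.S31.HC

open CongruenceSubgroup Matrix.SpecialLinearGroup Polynomial CuspForm
open scoped MatrixGroups TensorProduct
open Fermat.Agent.S29

/-- **[HC], general form**: an element of `𝕋~ = CC N S` whose action on `Λ` is divisible by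
`p ^ (n + a)` is divisible by `p ^ n` in `𝕋~`. -/
theorem main_gen (N : ℕ) [NeZero N] (S : Set ℕ) (p : ℕ) (hp : p.Prime) :
    ∃ a : ℕ, ∀ (n : ℕ) (x : CC N S),
      (∀ c : Lam N, ∃ d : Lam N, x.1.1 c = ((p : ℤ) ^ (n + a)) • d) →
      ∃ w : CC N S, x = ((p : ℤ) ^ n) • w := by
  obtain ⟨a, ha⟩ := exists_sat (prL N S) prL_injective p
  refine ⟨a, fun n x hdiv => ?_⟩
  have hm0 : ((p : ℤ) ^ (n + a)) ≠ 0 := pow_ne_zero _ (by exact_mod_cast hp.ne_zero)
  obtain ⟨Y, hY⟩ := exists_end_of_forall_smul (prL N S x) _ hm0 hdiv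
  exact ha n x Y hY

variable {N : ℕ} [NeZero N] {S : Set ℕ}

/-- the second projection, as a ring homomorphism. -/
def prT (N : ℕ) [NeZero N] (S : Set ℕ) : CC N S →+* heckeAlgebra N 2 S where
  toFun x := x.1.2
  map_zero' := rfl
  map_add' _ _ := rfl
  map_one' := rfl
  map_mul' _ _ := rfl

/-- the first projection, as a ring homomorphism. -/
def prLr (N : ℕ) [NeZero N] (S : Set ℕ) : CC N S →+* Module.End ℤ (Lam N) where
  toFun x := x.1.1
  map_zero' := rfl
  map_add' _ _ := rfl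
  map_one' := rfl
  map_mul' _ _ := rfl

theorem prLr_injective : Function.Injective (prLr N S) := prL_injective

/-- the generator of `𝕋~` attached to a prime. -/
noncomputable def genCC {l : ℕ} (hl : l.Prime) (hlN : ¬ l ∣ N) (hS : l ∉ S) : CC N S :=
  ⟨_, pair_mem_CC hl hlN hS⟩

theorem prT_genCC {l : ℕ} (hl : l.Prime) (hlN : ¬ l ∣ N) (hS : l ∉ S) :
    prT N S (genCC hl hlN hS) = heckeAlgebra.T hl hlN hS := rfl

theorem prLr_genCC {l : ℕ} (hl : l.Prime) (hlN : ¬ l ∣ N) (hS : l ∉ S) :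
    prLr N S (genCC hl hlN hS) = (haveI : Fact l.Prime := ⟨hl⟩; hL hlN) := rfl

theorem prT_surjective (hNS : ∀ q : ℕ, q.Prime → q ∣ N → q ∈ S) :
    Function.Surjective (prT N S) := by
  rintro ⟨t, ht⟩
  induction ht using Algebra.adjoin_induction with
  | mem x hx =>
    rcases hx with ⟨l, hl, hlN, hS, rfl⟩ | ⟨q, hqN, hq, hqS, rfl⟩
    · exact ⟨genCC hl hlN hS, rfl⟩
    · exact absurd (hNS q hq hqN) hqS
  | algebraMap r => exact ⟨algebraMap ℤ _ r, rfl⟩
  | add x y hx hy ihx ihy =>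
    obtain ⟨a, ha⟩ := ihx
    obtain ⟨b, hb⟩ := ihy
    exact ⟨a + b, by rw [map_add, ha, hb]; rfl⟩
  | mul x y hx hy ihx ihy =>
    obtain ⟨a, ha⟩ := ihx
    obtain ⟨b, hb⟩ := ihy
    exact ⟨a * b, by rw [map_mul, ha, hb]; rfl⟩

end Fermat.Agent.S31.HC
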