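import Mathlib

set_option autoImplicit false
set_option linter.style.haveILetI false

/-! # S31: Lucas sequences, powers of roots of a quadratic, traces of powers -/

namespace Fermat.Agent.S31

open Polynomial

/-- the Lucas sequence `V_j(a,d) = α^j + β^j`, `α + β = a`, `α β = d`. -/
def luc {R : Type*} [CommRing R] (a d : R) : ℕ → R
  | 0 => 2
  | 1 => a
  | (j + 2) => a * luc a d (j + 1) - d * luc a d j

section

variable {R : Type*} [CommRing R] (a d : R)

@[simp] theorem luc_zero : luc a d 0 = 2 := rfl
@[simp] theorem luc_one : luc a d 1 = a := rfl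
theorem luc_add_two (j : ℕ) : luc a d (j + 2) = a * luc a d (j + 1) - d * luc a d j := rfl

theorem map_luc {R' : Type*} [CommRing R'] (f : R →+* R') (j : ℕ) :
    f (luc a d j) = luc (f a) (f d) j := by
  induction j using Nat.twoStepInduction with
  | zero => rw [luc_zero, luc_zero, map_ofNat]
  | one => simp
  | more j h1 h2 => rw [luc_add_two, luc_add_two, map_sub, map_mul, map_mul, h1, h2]

end

section Alg

variable {R : Type*} [CommRing R] {B : Type*} [Ring B] [Algebra R B]

theorem luc_smul_one_eq (a d : R) (x : B) (h : x ^ 2 - a • x + d • (1 : B) = 0) (j : ℕ) :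
    luc a d j • (1 : B) = x ^ j + (a • (1 : B) - x) ^ j := by
  set y : B := a • (1 : B) - x with hy
  have hc : Commute x y := by
    rw [hy]
    exact ((by
      rw [Algebra.smul_def, mul_one]
      exact (Algebra.commutes a x).symm : Commute x (a • (1 : B)))).sub_right (Commute.refl x)
  have hxy : x * y = d • (1 : B) := by
    have : x * y = -(x ^ 2 - a • x + d • (1 : B)) + d • (1 : B) := by
      rw [hy, mul_sub, mul_smul_comm, mul_one, sq]; abel
    rw [this, h, neg_zero, zero_add]
  have hsum : x + y = a • (1 : B) := by rw [hy]; abel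
  induction j using Nat.twoStepInduction with
  | zero => rw [luc_zero, pow_zero, pow_zero, ofNat_smul_eq_nsmul, two_nsmul]
  | one => rw [luc_one, pow_one, pow_one, hsum]
  | more j h1 h2 =>
    have key : x ^ (j + 2) + y ^ (j + 2) =
        (x + y) * (x ^ (j + 1) + y ^ (j + 1)) - (x * y) * (x ^ j + y ^ j) := by
      have e1 : y * x ^ (j + 1) = (x * y) * x ^ j := by
        rw [pow_succ', ← mul_assoc, hc.eq]
      have e2 : x * y ^ (j + 1) = (x * y) * y ^ j := by
        rw [pow_succ', ← mul_assoc]
      rw [add_mul, mul_add, mul_add, e1, e2, mul_add, ← pow_succ', ← pow_succ']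
      abel
    rw [key, hsum, hxy, ← h1, ← h2, luc_add_two, sub_smul, mul_smul, mul_smul,
      smul_mul_assoc, one_mul, smul_mul_assoc, one_mul]

/-- **power lemma**, ring version. -/
theorem pow_rel (a d : R) (x : B) (h : x ^ 2 - a • x + d • (1 : B) = 0) (j : ℕ) :
    (x ^ j) ^ 2 - luc a d j • x ^ j + d ^ j • (1 : B) = 0 := by
  set y : B := a • (1 : B) - x with hy
  have hc : Commute x y := by
    rw [hy]
    exact ((by
      rw [Algebra.smul_def, mul_one]
      exact (Algebra.commutes a x).symm : Commute x (a • (1 : B)))).sub_right (Commute.refl x)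
  have hxy : x * y = d • (1 : B) := by
    have : x * y = -(x ^ 2 - a • x + d • (1 : B)) + d • (1 : B) := by
      rw [hy, mul_sub, mul_smul_comm, mul_one, sq]; abel
    rw [this, h, neg_zero, zero_add]
  have h1 : luc a d j • x ^ j = (x ^ j + y ^ j) * x ^ j := by
    rw [← luc_smul_one_eq a d x h j, smul_mul_assoc, one_mul]
  have h2 : y ^ j * x ^ j = d ^ j • (1 : B) := by
    rw [← (hc.symm).mul_pow, hc.symm.eq, hxy, _root_.smul_pow, one_pow]
  rw [h1, add_mul, h2, sq]
  abel

end Alg

section Trace

variable {T : Type*} [CommRing T] {V : Type*} [AddCommGroup V] [Module T V] [Module.Free T V]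
  [Module.Finite T V]

theorem rel_of_charpoly (f : Module.End T V) (a d : T)
    (h : LinearMap.charpoly f = X ^ 2 - C a * X + C d) : f ^ 2 - a • f + d • (1 : Module.End T V) = 0 := by
  have := LinearMap.aeval_self_charpoly f
  rw [h] at this
  simpa [Algebra.smul_def] using this

theorem trace_of_charpoly [Nontrivial T] (h2 : Module.finrank T V = 2) (f : Module.End T V) (a d : T)
    (h : LinearMap.charpoly f = X ^ 2 - C a * X + C d) : LinearMap.trace T V f = a := by
  let b := Module.Free.chooseBasis T V
  have hcard : Fintype.card (Module.Free.ChooseBasisIndex T V) = 2 := by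
    rw [← Module.finrank_eq_card_chooseBasisIndex, h2]
  haveI : Nonempty (Module.Free.ChooseBasisIndex T V) := by
    rw [← Fintype.card_pos_iff, hcard]; norm_num
  rw [LinearMap.trace_eq_matrix_trace T b, Matrix.trace_eq_neg_charpoly_coeff, hcard,
    LinearMap.charpoly_toMatrix, h]
  simp [Polynomial.coeff_C]

/-- the trace of a power in rank two. -/
theorem trace_pow [Nontrivial T] (h2 : Module.finrank T V = 2) (f : Module.End T V) (a d : T)
    (h : LinearMap.charpoly f = X ^ 2 - C a * X + C d) (j : ℕ) :
    LinearMap.trace T V (f ^ j) = luc a d j := by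
  have hrel := rel_of_charpoly f a d h
  induction j using Nat.twoStepInduction with
  | zero =>
    rw [pow_zero, LinearMap.trace_one, h2, luc_zero]; norm_num
  | one => rw [pow_one, luc_one, trace_of_charpoly h2 f a d h]
  | more j h1 h3 =>
    have e : f ^ (j + 2) = a • f ^ (j + 1) - d • f ^ j := by
      have : f ^ (j + 2) - a • f ^ (j + 1) + d • f ^ j =
          (f ^ 2 - a • f + d • (1 : Module.End T V)) * f ^ j := by
        rw [add_mul, sub_mul, smul_mul_assoc, smul_mul_assoc, one_mul, ← pow_add, ← pow_succ']
        congr 2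
        rw [add_comm]
      rw [hrel, zero_mul] at this
      rw [← sub_eq_zero, ← this]; abel
    rw [e, map_sub, map_smul, map_smul, h1, h3, luc_add_two, smul_eq_mul, smul_eq_mul]

end Trace

end Fermat.Agent.S31
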