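import Mathlib
import Fermat.Agent.S31.Lucas

set_option autoImplicit false

/-! # S31 [U2]: Lucas polynomials and the abstract Eichler--Shimura induction -/

namespace Fermat.Agent.S31

open Polynomial

/-- the Lucas polynomial. -/
noncomputable def lucPoly (d : ℤ) (i : ℕ) : ℤ[X] := luc (X : ℤ[X]) (C d) i

theorem lucPoly_zero (d : ℤ) : lucPoly d 0 = 2 := rfl
theorem lucPoly_one (d : ℤ) : lucPoly d 1 = X := rfl
theorem lucPoly_add_two (d : ℤ) (i : ℕ) :
    lucPoly d (i + 2) = X * lucPoly d (i + 1) - C d * lucPoly d i := rfl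

theorem aeval_lucPoly {A : Type*} [CommRing A] (x : A) (d : ℤ) (i : ℕ) :
    aeval x (lucPoly d i) = luc x (d : A) i := by
  unfold lucPoly
  have := map_luc (X : ℤ[X]) (C d) (aeval x : ℤ[X] →ₐ[ℤ] A).toRingHom i
  simpa using this

/-- the abstract Eichler--Shimura induction. -/
theorem theta_lucPoly {G HH X : Type*} [Group G] [AddCommGroup HH] [AddCommGroup X]
    (act : G → X →+ X) (hmul : ∀ a b x, act (a * b) x = act a (act b x))
    (hone : ∀ x, act 1 x = x) (Θ : HH →+ X)
    (σ : G) (Tl : Module.End ℤ HH) (l : ℤ)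
    (h : ∀ c, Θ (Tl c) = act σ (Θ c) + l • act σ⁻¹ (Θ c)) (i : ℕ) (c : HH) :
    Θ (aeval Tl (lucPoly l i) c) = act (σ ^ i) (Θ c) + l ^ i • act (σ ^ i)⁻¹ (Θ c) := by
  induction i using Nat.strong_induction_on with
  | _ i ih =>
    match i with
    | 0 =>
      rw [lucPoly_zero, pow_zero, inv_one, hone, pow_zero, one_smul]
      have : (aeval Tl (2 : ℤ[X])) c = c + c := by
        rw [show (2 : ℤ[X]) = 1 + 1 by norm_num, map_add, map_one]
        rfl
      rw [this, map_add]
    | 1 => rw [lucPoly_one, aeval_X, pow_one, pow_one, h]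
    | (i + 2) =>
      have e : aeval Tl (lucPoly l (i + 2)) c =
          Tl (aeval Tl (lucPoly l (i + 1)) c) - l • aeval Tl (lucPoly l i) c := by
        rw [lucPoly_add_two, map_sub, map_mul, map_mul, aeval_X, aeval_C,
          Algebra.algebraMap_eq_smul_one, smul_mul_assoc, one_mul]
        rfl
      rw [e, map_sub, h, map_zsmul, ih (i + 1) (by omega), ih i (by omega)]
      simp only [map_add, map_zsmul, ← hmul]
      have e1 : σ * σ ^ (i + 1) = σ ^ (i + 2) := by rw [← pow_succ']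
      have e2 : σ * (σ ^ (i + 1))⁻¹ = (σ ^ i)⁻¹ := by
        rw [pow_succ, mul_inv_rev, mul_inv_cancel_left]
      have e3 : σ⁻¹ * σ ^ (i + 1) = σ ^ i := by rw [pow_succ', inv_mul_cancel_left]
      have e4 : σ⁻¹ * (σ ^ (i + 1))⁻¹ = (σ ^ (i + 2))⁻¹ := by
        rw [← mul_inv_rev, ← pow_succ]
      rw [e1, e2, e3, e4, smul_add, smul_add, smul_smul, smul_smul]
      have e5 : l * l ^ (i + 1) = l ^ (i + 2) := by ring
      have e6 : l * l ^ i = l ^ (i + 1) := by ring
      rw [e5, e6]
      abel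

end Fermat.Agent.S31
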