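import Mathlib
import Fermat.Agent.S29.GlueM
import Fermat.Agent.S31.LucasPoly
import Fermat.Agent.S31.HCd

set_option autoImplicit false
set_option linter.unusedSectionVars false
set_option linter.style.haveILetI false
set_option synthInstance.maxHeartbeats 400000

/-! # S31 [U5] assembly, part A: auxiliary lemmas -/

namespace Fermat.Agent.S31

open CongruenceSubgroup Polynomial
open Fermat.Agent.S24 (FN Kb)
open Fermat.Agent.S29 Fermat.Agent.S29.Glue Fermat.Agent.S29.Cyc

theorem repr_mem_of_mem_smul_top {T V ι : Type} [CommRing T] [AddCommGroup V] [Module T V]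
    (b : Module.Basis ι T V) (I : Ideal T) {x : V} (hx : x ∈ I • (⊤ : Submodule T V)) (i : ι) :
    b.repr x i ∈ I := by
  induction hx using Submodule.smul_induction_on' with
  | smul r hr v _ =>
    rw [map_smul, Finsupp.smul_apply, smul_eq_mul]
    exact I.mul_mem_right _ hr
  | add x _ y _ hx hy =>
    rw [map_add, Finsupp.add_apply]
    exact I.add_mem hx hy

theorem trace_mem_of_forall {T V : Type} [CommRing T] [AddCommGroup V] [Module T V]
    [Module.Free T V] [Module.Finite T V] (I : Ideal T) (Y : Module.End T V)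
    (h : ∀ v, Y v ∈ I • (⊤ : Submodule T V)) : LinearMap.trace T V Y ∈ I := by
  classical
  let b := Module.Free.chooseBasis T V
  rw [LinearMap.trace_eq_matrix_trace T b, Matrix.trace]
  refine I.sum_mem fun i _ => ?_
  rw [Matrix.diag_apply, LinearMap.toMatrix_apply]
  exact repr_mem_of_mem_smul_top b I (h _) i

/-- if `ρ κ ≡ 1` modulo `I` then `tr ρ(g κ) ≡ tr ρ(g)` modulo `I`. -/
theorem trace_mul_sub_mem {T V : Type} [CommRing T] [AddCommGroup V] [Module T V]
    [Module.Free T V] [Module.Finite T V] (I : Ideal T) (X K : Module.End T V)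
    (h : ∀ v, K v - v ∈ I • (⊤ : Submodule T V)) :
    LinearMap.trace T V (X * K) - LinearMap.trace T V X ∈ I := by
  rw [← map_sub]
  apply trace_mem_of_forall
  intro v
  have e : (X * K - X) v = X (K v - v) := by
    rw [LinearMap.sub_apply, Module.End.mul_apply, map_sub]
  rw [e]
  have h1 : (I • (⊤ : Submodule T V)).map X ≤ I • (⊤ : Submodule T V) := by
    rw [Submodule.map_smul'']
    exact Submodule.smul_mono le_rfl le_top
  exact h1 (Submodule.mem_map_of_mem (h v))

variable (N m : ℕ) [NeZero N] [NeZero m]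

instance finite_HH : Finite (HH m N) := by
  haveI := fg_Gamma0 N
  obtain ⟨S, hS⟩ := (Group.FG.out : (⊤ : Subgroup (Gamma0 N)).FG)
  let ev : HH m N → (S → ZMod m) := fun c s => c.1 (Additive.ofMul s.1)
  refine Finite.of_injective ev ?_
  intro c c' h
  apply Subtype.ext
  apply HC.hom_ext_of_closure N hS
  intro s hs
  exact congrFun h ⟨s, hs⟩

/-- every element of `FN^× / m` has a finite level. -/
theorem exists_level_X (x : Xq (FN N)ˣ m) : ∃ L : IntermediateField ℚ Qb, FiniteDimensional ℚ L ∧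
    ∀ σ : GQ, (∀ a ∈ L, σ a = a) → actG N m σ x = x := by
  obtain ⟨u, rfl⟩ := cls_surj m x
  obtain ⟨L, hL, h⟩ := exists_level_FN N (u : FN N)
  refine ⟨L, hL, fun σ hσ => ?_⟩
  rw [actG_cls]
  congr 1
  exact Units.ext (h σ hσ)

/-- the Hecke operator on `HH m N`, as a `ℤ`-linear map. -/
noncomputable def TZ (ℓ : ℕ) : Module.End ℤ (HH m N) := (TH m N ℓ).toAddMonoidHom.toIntLinearMap

theorem TZ_apply (ℓ : ℕ) (c : HH m N) : TZ N m ℓ c = TH m N ℓ c := rfl

theorem coe_aeval_TZ {ℓ : ℕ} [Fact ℓ.Prime] (hℓN : ¬ ℓ ∣ N) (f : ℤ[X]) (c : HH m N) :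
    ((aeval (TZ N m ℓ) f c : HH m N) : Additive (Gamma0 N) →+ ZMod m) =
      aeval (heckeLin ℤ hℓN : Module.End ℤ (Additive (Gamma0 N) →+ ZMod m)) f c.1 := by
  induction f using Polynomial.induction_on' with
  | add p q hp hq =>
    rw [map_add, map_add, LinearMap.add_apply, LinearMap.add_apply, ← hp, ← hq]
    rfl
  | monomial n a =>
    rw [aeval_monomial, aeval_monomial, Module.End.mul_apply, Module.End.mul_apply,
      Module.algebraMap_end_apply, Module.algebraMap_end_apply]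
    have h1 : ∀ (n : ℕ) (c : HH m N),
        (((TZ N m ℓ ^ n) c : HH m N) : Additive (Gamma0 N) →+ ZMod m) =
        ((heckeLin ℤ hℓN : Module.End ℤ (Additive (Gamma0 N) →+ ZMod m)) ^ n) c.1 := by
      intro n
      induction n with
      | zero => intro c; rfl
      | succ n ih =>
        intro c
        rw [pow_succ, pow_succ, Module.End.mul_apply, Module.End.mul_apply, ih, TZ_apply,
          coe_TH m Fact.out hℓN]
        rfl
    rw [← h1]
    rfl

/-- the Eichler-Shimura relation, in the form `Θ(T_ℓ c) = σ Θ(c) + ℓ σ⁻¹ Θ(c)`. -/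
theorem thetaM_TZ {ℓ : ℕ} (hℓ : ℓ.Prime) (hℓN : ¬ ℓ ∣ N) (hℓm : ¬ ℓ ∣ m)
    (A : ValuationSubring Qb) (hA : A.LiesOverPrime ℓ) (σ : GQ) (hσ : A.IsFrobeniusAt σ ℓ)
    (c : HH m N) :
    thetaM N m (TZ N m ℓ c) =
      actG N m σ (thetaM N m c) + (ℓ : ℤ) • actG N m σ⁻¹ (thetaM N m c) := by
  have h := thetaM_frob N m hℓ hℓN hℓm A hA σ hσ c σ⁻¹
  have e : ∀ x, actG N m σ (actG N m σ⁻¹ x) = x := by
    intro x
    rw [← Module.End.mul_apply, ← map_mul, mul_inv_cancel, map_one]
    rfl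
  rw [e, e] at h
  rw [TZ_apply, natCast_zsmul]
  have h2 := sub_eq_zero.mp (by rw [← h]; abel :
    actG N m σ (thetaM N m c) + ℓ • actG N m σ⁻¹ (thetaM N m c) - thetaM N m (TH m N ℓ c) = 0)
  exact h2.symm

/-- the Lucas form of the Eichler-Shimura relation. -/
theorem thetaM_lucPoly {ℓ : ℕ} (hℓ : ℓ.Prime) (hℓN : ¬ ℓ ∣ N) (hℓm : ¬ ℓ ∣ m)
    (A : ValuationSubring Qb) (hA : A.LiesOverPrime ℓ) (σ : GQ) (hσ : A.IsFrobeniusAt σ ℓ)
    (j : ℕ) (c : HH m N) :
    thetaM N m (aeval (TZ N m ℓ) (lucPoly ℓ j) c) =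
      actG N m (σ ^ j) (thetaM N m c) + ((ℓ : ℤ) ^ j) • actG N m (σ ^ j)⁻¹ (thetaM N m c) :=
  theta_lucPoly (fun g => (actG N m g).toAddMonoidHom)
    (fun a b x => by
      show actG N m (a * b) x = actG N m a (actG N m b x)
      rw [map_mul]; rfl)
    (fun x => by
      show actG N m 1 x = x
      rw [map_one]; rfl)
    (thetaM N m).toAddMonoidHom σ (TZ N m ℓ) ℓ (thetaM_TZ N m hℓ hℓN hℓm A hA σ hσ) j c

end Fermat.Agent.S31
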