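import Mathlib
import Fermat.Prelude.Def_GaloisRep_Adic
import Fermat.Agent.S53.Burnside

set_option autoImplicit false
set_option linter.style.haveILetI false

/-! # S31: a residually absolutely irreducible representation is rigid for its trace -/

namespace Fermat.Agent.S31

open scoped TensorProduct

local notation "GQ" => (AlgebraicClosure ℚ ≃ₐ[ℚ] AlgebraicClosure ℚ)

variable {T : Type} [CommRing T] [IsLocalRing T]

theorem mem_smul_top_of_baseChange_eq_zero {V : Type} [AddCommGroup V] [Module T V]
    (b : Module.Basis (Fin 2) T V) (g : Module.End T V)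
    (hg : g.baseChange (IsLocalRing.ResidueField T) = 0) :
    g ∈ IsLocalRing.maximalIdeal T • (⊤ : Submodule T (Module.End T V)) := by
  classical
  have h1 := LinearMap.toMatrix_baseChange (IsLocalRing.ResidueField T) g b b
  rw [hg, map_zero] at h1
  have h2 : ∀ i j, LinearMap.toMatrix b b g i j ∈ IsLocalRing.maximalIdeal T := by
    intro i j
    have := congrFun (congrFun h1 i) j
    rw [Matrix.zero_apply, Matrix.map_apply] at this
    exact (IsLocalRing.residue_eq_zero_iff _).mp this.symm
  have h3 : g = ∑ i, ∑ j, LinearMap.toMatrix b b g i j • Matrix.toLin b b (Matrix.single i j 1) := by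
    conv_lhs => rw [← Matrix.toLin_toMatrix b b g, Matrix.matrix_eq_sum_single (LinearMap.toMatrix b b g)]
    rw [map_sum]
    refine Finset.sum_congr rfl fun i _ => ?_
    rw [map_sum]
    refine Finset.sum_congr rfl fun j _ => ?_
    rw [← map_smul, Matrix.smul_single, smul_eq_mul, mul_one]
  rw [h3]
  refine Submodule.sum_mem _ fun i _ => Submodule.sum_mem _ fun j _ => ?_
  exact Submodule.smul_mem_smul (h2 i j) Submodule.mem_top

theorem span_range_eq_top (ρ : GaloisRepAdic T) (h : ρ.residual.IsAbsolutelyIrreducible) :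
    Submodule.span T (Set.range ρ.ρ) = ⊤ := by
  classical
  let b : Module.Basis (Fin 2) T ρ.V := Module.finBasisOfFinrankEq T ρ.V ρ.finrank_eq
  have hres := Fermat.Agent.S53.span_range_eq_top ρ.residual h
  have key : ∀ x ∈ Submodule.span (IsLocalRing.ResidueField T) (Set.range ρ.residual.ρ),
      ∃ s ∈ Submodule.span T (Set.range ρ.ρ),
        s.baseChange (IsLocalRing.ResidueField T) = x := by
    intro x hx
    induction hx using Submodule.span_induction with
    | mem x hx =>
      obtain ⟨σ, rfl⟩ := hx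
      exact ⟨ρ.ρ σ, Submodule.subset_span ⟨σ, rfl⟩, rfl⟩
    | zero => exact ⟨0, Submodule.zero_mem _, LinearMap.baseChange_zero⟩
    | add x y _ _ hx hy =>
      obtain ⟨s, hs, rfl⟩ := hx
      obtain ⟨s', hs', rfl⟩ := hy
      exact ⟨s + s', Submodule.add_mem _ hs hs', LinearMap.baseChange_add _ _⟩
    | smul c x _ hx =>
      obtain ⟨s, hs, rfl⟩ := hx
      obtain ⟨t, rfl⟩ := IsLocalRing.residue_surjective c
      refine ⟨t • s, Submodule.smul_mem _ _ hs, ?_⟩
      rw [LinearMap.baseChange_smul]
      exact (algebraMap_smul (IsLocalRing.ResidueField T) t _).symm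
  rw [eq_top_iff]
  refine Submodule.le_of_le_smul_of_le_jacobson_bot (I := IsLocalRing.maximalIdeal T)
    (Module.Finite.fg_top) (IsLocalRing.maximalIdeal_le_jacobson _) ?_
  intro f _
  obtain ⟨s, hs, hsf⟩ := key (f.baseChange (IsLocalRing.ResidueField T)) (by rw [hres]; trivial)
  have h1 : f = s + (f - s) := by abel
  rw [h1]
  refine Submodule.add_mem_sup hs (mem_smul_top_of_baseChange_eq_zero b _ ?_)
  rw [LinearMap.baseChange_sub, hsf]
  exact LinearMap.ext fun x => sub_self _

theorem eq_one_of_trace (ρ : GaloisRepAdic T) (h : ρ.residual.IsAbsolutelyIrreducible) (i : GQ)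
    (hi : ∀ g : GQ, LinearMap.trace T ρ.V (ρ.ρ (g * i)) = LinearMap.trace T ρ.V (ρ.ρ g)) :
    ρ.ρ i = 1 := by
  classical
  let b : Module.Basis (Fin 2) T ρ.V := Module.finBasisOfFinrankEq T ρ.V ρ.finrank_eq
  have h1 : ∀ Y : Module.End T ρ.V, LinearMap.trace T ρ.V (Y * (ρ.ρ i - 1)) = 0 := by
    intro Y
    have hY : Y ∈ Submodule.span T (Set.range ρ.ρ) := by rw [span_range_eq_top ρ h]; trivial
    induction hY using Submodule.span_induction with
    | mem x hx =>
      obtain ⟨g, rfl⟩ := hx
      rw [mul_sub, mul_one, ← map_mul, map_sub, hi, sub_self]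
    | zero => rw [zero_mul, map_zero]
    | add x y _ _ hx hy => rw [add_mul, map_add, hx, hy, add_zero]
    | smul c x _ hx => rw [smul_mul_assoc, map_smul, hx, smul_zero]
  have h2 : LinearMap.toMatrix b b (ρ.ρ i - 1) = 0 := by
    rw [Matrix.ext_iff_trace_mul_left]
    intro x
    have := h1 (Matrix.toLin b b x)
    rw [LinearMap.trace_eq_matrix_trace T b, LinearMap.toMatrix_mul, LinearMap.toMatrix_toLin] at this
    rw [this, mul_zero, Matrix.trace_zero]
  have h3 : ρ.ρ i - 1 = 0 := (LinearMap.toMatrix b b).injective (by rw [h2, map_zero])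
  exact sub_eq_zero.mp h3

end Fermat.Agent.S31
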