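import Mathlib
import Fermat.Agent.S31.AsmA
import Fermat.Agent.S31.RootsUnity
import Fermat.Agent.S31.TraceRigid
import Fermat.Agent.S29.DensMain
import Fermat.Prelude.Def_CuspForm_HeckeGaloisRepDatum

set_option autoImplicit false
set_option linter.unusedSectionVars false
set_option linter.style.haveILetI false
set_option synthInstance.maxHeartbeats 400000
set_option maxHeartbeats 1000000

/-! # S31 [U5] assembly, part B: approximation of an arbitrary Galois element by a power of a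
Frobenius element -/

namespace Fermat.Agent.S31

open CongruenceSubgroup Polynomial CuspForm
open Fermat.Agent.S24 (FN Kb)
open Fermat.Agent.S29 Fermat.Agent.S29.Glue Fermat.Agent.S29.Cyc

variable {N : ℕ} [NeZero N] {S : Finset ℕ} {T : Type} [CommRing T] [IsLocalRing T]

theorem step (m : ℕ) [NeZero m] (hmS : ∀ ℓ : ℕ, ℓ.Prime → ℓ ∣ m → ℓ ∈ S)
    (ρ : GaloisRepAdic T) (π : heckeAlgebra N 2 (↑S : Set ℕ) →+* T)
    (hchar : ∀ (ℓ : ℕ) (hℓ : ℓ.Prime) (hℓN : ¬ ℓ ∣ N) (hℓS : ℓ ∉ (↑S : Set ℕ)),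
      ∀ A : ValuationSubring Qb, A.LiesOverPrime ℓ → ∀ σ : GQ, A.IsFrobeniusAt σ ℓ →
        LinearMap.charpoly (ρ.ρ σ) = X ^ 2 - C (π (heckeAlgebra.T hℓ hℓN hℓS)) * X + C ((ℓ : T)))
    (I : Ideal T) (L : IntermediateField ℚ Qb) [FiniteDimensional ℚ L] (g : GQ)
    (hLρ : ∀ σ : GQ, (∀ x ∈ L, σ x = x) → ∀ v : ρ.V, ρ.ρ σ v - v ∈ I • (⊤ : Submodule T ρ.V))
    (hLΘ : ∀ σ : GQ, (∀ x ∈ L, σ x = x) → ∀ c : HH m N,
      actG N m σ (thetaM N m c) = thetaM N m c)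
    (hLΘ' : ∀ σ : GQ, (∀ x ∈ L, σ x = x) → ∀ c : HH m N,
      actG N m σ (actG N m g⁻¹ (thetaM N m c)) = actG N m g⁻¹ (thetaM N m c))
    (ζ : Qb) (hζ : ζ ^ m = 1) (hζL : ζ ∈ L) :
    ∃ (ℓ : ℕ) (hℓ : ℓ.Prime) (hℓN : ¬ ℓ ∣ N) (hℓS : ℓ ∉ (↑S : Set ℕ)) (j : ℕ),
      (π (aeval (heckeAlgebra.T (k := 2) hℓ hℓN hℓS) (lucPoly ℓ j)) -
        LinearMap.trace T ρ.V (ρ.ρ g) ∈ I) ∧
      (∀ c : HH m N, thetaM N m (aeval (TZ N m ℓ) (lucPoly ℓ j) c) =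
        actG N m g (thetaM N m c) + ((ℓ : ℤ) ^ j) • actG N m g⁻¹ (thetaM N m c)) ∧
      g ζ = ζ ^ (ℓ ^ j) := by
  classical
  have hD : N * ∏ s ∈ S.erase 0, s ≠ 0 := by
    refine mul_ne_zero (NeZero.ne N) (Finset.prod_ne_zero_iff.mpr fun s hs => ?_)
    exact (Finset.mem_erase.mp hs).1
  obtain ⟨ℓ, hℓ, hℓD, A, hA, τ, hτ, j, hj⟩ := Dens.exists_frobenius_pow L g _ hD
  have hℓN : ¬ ℓ ∣ N := fun h => hℓD (Dvd.dvd.mul_right h _)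
  have hℓS' : ℓ ∉ S := fun h => hℓD (Dvd.dvd.mul_left
    (Finset.dvd_prod_of_mem _ (Finset.mem_erase.mpr ⟨hℓ.ne_zero, h⟩)) _)
  have hℓS : ℓ ∉ (↑S : Set ℕ) := hℓS'
  have hℓm : ¬ ℓ ∣ m := fun h => hℓS' (hmS ℓ hℓ h)
  obtain ⟨κ, hκ⟩ : ∃ κ : GQ, κ = g⁻¹ * τ ^ j := ⟨_, rfl⟩
  have hκL : ∀ x ∈ L, κ x = x := by
    intro x hx
    rw [hκ, AlgEquiv.mul_apply, hj x hx]
    exact AlgEquiv.symm_apply_apply g x
  have hκL' : ∀ x ∈ L, κ⁻¹ x = x := by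
    intro x hx
    conv_lhs => rw [← hκL x hx]
    exact AlgEquiv.symm_apply_apply κ x
  have hτj : τ ^ j = g * κ := by rw [hκ, mul_inv_cancel_left]
  have hτj' : (τ ^ j)⁻¹ = κ⁻¹ * g⁻¹ := by rw [hτj, mul_inv_rev]
  refine ⟨ℓ, hℓ, hℓN, hℓS, j, ?_, ?_, ?_⟩
  · have h1 := trace_pow ρ.finrank_eq (ρ.ρ τ) _ _ (hchar ℓ hℓ hℓN hℓS A hA τ hτ) j
    have h2 : π (aeval (heckeAlgebra.T (k := 2) hℓ hℓN hℓS) (lucPoly ℓ j)) =
        LinearMap.trace T ρ.V (ρ.ρ (g * κ)) := by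
      rw [← hτj, map_pow, h1, aeval_lucPoly, map_luc]
      simp
    rw [h2, map_mul]
    exact trace_mul_sub_mem I _ _ (hLρ κ hκL)
  · intro c
    rw [thetaM_lucPoly N m hℓ hℓN hℓm A hA τ hτ j c, hτj', hτj, map_mul, map_mul,
      Module.End.mul_apply, Module.End.mul_apply, hLΘ κ hκL c, hLΘ' κ⁻¹ hκL' c]
  · rw [← hj ζ hζL]
    exact frobenius_pow_apply_root A hA hℓ hℓm hτ ζ hζ j

end Fermat.Agent.S31
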