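import Mathlib
import Fermat.Agent.S31.AsmB

set_option autoImplicit false
set_option linter.unusedSectionVars false
set_option linter.style.haveILetI false
set_option synthInstance.maxHeartbeats 400000
set_option maxHeartbeats 1000000

/-! # S31 [U5] assembly, part C: the trace is invariant under inertia -/

namespace Fermat.Agent.S31

open CongruenceSubgroup Polynomial CuspForm IntermediateField
open Fermat.Agent.S24 (FN Kb)
open Fermat.Agent.S29 Fermat.Agent.S29.Glue Fermat.Agent.S29.Cyc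

variable {N : ℕ} [NeZero N] {S : Finset ℕ} {T : Type} [CommRing T] [IsLocalRing T]

theorem zsmul_eq_of_modEq {U : Type} [CommGroup U] (m : ℕ) {a b : ℕ} (h : a ≡ b [MOD m])
    (x : Xq U m) : (a : ℤ) • x = (b : ℤ) • x := by
  obtain ⟨k, hk⟩ := (Nat.modEq_iff_dvd.mp h)
  have e : (b : ℤ) = a + m * k := by linarith
  rw [e, add_smul, mul_comm, mul_smul, natCast_zsmul x m, p_nsmul, smul_zero, add_zero]

theorem key (p : ℕ) (hp : p.Prime) (hpT : (p : T) ∈ IsLocalRing.maximalIdeal T) (hpS : p ∈ S)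
    (hNS : ∀ q : ℕ, q.Prime → q ∣ N → q ∈ S)
    (ρ : GaloisRepAdic T) (π : heckeAlgebra N 2 (↑S : Set ℕ) →+* T)
    (hchar : ∀ (ℓ : ℕ) (hℓ : ℓ.Prime) (hℓN : ¬ ℓ ∣ N) (hℓS : ℓ ∉ (↑S : Set ℕ)),
      ∀ A : ValuationSubring Qb, A.LiesOverPrime ℓ → ∀ σ : GQ, A.IsFrobeniusAt σ ℓ →
        LinearMap.charpoly (ρ.ρ σ) = X ^ 2 - C (π (heckeAlgebra.T hℓ hℓN hℓS)) * X + C ((ℓ : T)))
    (q : ℕ) (hq : q.Prime) (hqS : q ∉ S) (P : ValuationSubring Qb) (hP : P.LiesOverPrime q)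
    (i0 : GQ) (hi0 : i0 ∈ P.inertiaSubgroupIn ℚ) (g : GQ) (n : ℕ) :
    LinearMap.trace T ρ.V (ρ.ρ (g * i0)) - LinearMap.trace T ρ.V (ρ.ρ g) ∈
      IsLocalRing.maximalIdeal T ^ n := by
  classical
  obtain ⟨a, ha⟩ := HC.main N (↑S : Set ℕ) p hp
  obtain ⟨m, hm⟩ : ∃ m : ℕ, m = p ^ (n + a) := ⟨_, rfl⟩
  haveI : NeZero m := ⟨by rw [hm]; exact pow_ne_zero _ hp.ne_zero⟩
  have hmS : ∀ ℓ : ℕ, ℓ.Prime → ℓ ∣ m → ℓ ∈ S := by
    intro ℓ hℓ h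
    rw [hm] at h
    rw [(Nat.prime_dvd_prime_iff_eq hℓ hp).mp (hℓ.dvd_of_dvd_pow h)]
    exact hpS
  have hqN : ¬ q ∣ N := fun h => hqS (hNS q hq h)
  have hqm : ¬ q ∣ m := fun h => hqS (hmS q hq h)
  choose Lx hLfd hLx using exists_level_X N m
  obtain ⟨Lρ, hLρfd, hLρ⟩ := ρ.isAdicContinuous n
  obtain ⟨ζ, hζ⟩ : ∃ ζ : Qb, IsPrimitiveRoot ζ m :=
    HasEnoughRootsOfUnity.exists_primitiveRoot Qb m
  let L1 : HH m N → IntermediateField ℚ Qb := fun c =>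
    Lx (thetaM N m c) ⊔ Lx (actG N m g⁻¹ (thetaM N m c)) ⊔
      Lx (actG N m (g * i0)⁻¹ (thetaM N m c))
  haveI : ∀ x, FiniteDimensional ℚ (Lx x) := hLfd
  haveI : ∀ c, FiniteDimensional ℚ (L1 c) := fun c => inferInstance
  haveI : FiniteDimensional ℚ ℚ⟮ζ⟯ :=
    adjoin.finiteDimensional (Algebra.IsIntegral.isIntegral ζ)
  obtain ⟨L, hL⟩ : ∃ L : IntermediateField ℚ Qb, L = (⨆ c, L1 c) ⊔ (Lρ ⊔ ℚ⟮ζ⟯) := ⟨_, rfl⟩
  haveI : FiniteDimensional ℚ L := by rw [hL]; infer_instance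
  have hL1 : ∀ c, L1 c ≤ L := fun c => by
    rw [hL]; exact le_trans (le_iSup L1 c) le_sup_left
  have hLρ' : ∀ σ : GQ, (∀ x ∈ L, σ x = x) → ∀ v : ρ.V,
      ρ.ρ σ v - v ∈ (IsLocalRing.maximalIdeal T ^ n) • (⊤ : Submodule T ρ.V) := by
    intro σ hσ
    refine hLρ σ fun x hx => hσ x ?_
    rw [hL]
    exact (le_trans le_sup_left le_sup_right : Lρ ≤ (⨆ c, L1 c) ⊔ (Lρ ⊔ ℚ⟮ζ⟯)) hx
  have hζL : ζ ∈ L := by
    rw [hL]
    exact (le_trans le_sup_right le_sup_right : ℚ⟮ζ⟯ ≤ (⨆ c, L1 c) ⊔ (Lρ ⊔ ℚ⟮ζ⟯))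
      (mem_adjoin_simple_self ℚ ζ)
  have hΘ0 : ∀ σ : GQ, (∀ x ∈ L, σ x = x) → ∀ c : HH m N,
      actG N m σ (thetaM N m c) = thetaM N m c := by
    intro σ hσ c
    refine hLx _ σ fun x hx => hσ x (hL1 c ?_)
    exact (le_trans le_sup_left le_sup_left : Lx (thetaM N m c) ≤ L1 c) hx
  have hΘ1 : ∀ σ : GQ, (∀ x ∈ L, σ x = x) → ∀ c : HH m N,
      actG N m σ (actG N m g⁻¹ (thetaM N m c)) = actG N m g⁻¹ (thetaM N m c) := by
    intro σ hσ c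
    refine hLx _ σ fun x hx => hσ x (hL1 c ?_)
    exact (le_trans le_sup_right le_sup_left :
      Lx (actG N m g⁻¹ (thetaM N m c)) ≤ L1 c) hx
  have hΘ2 : ∀ σ : GQ, (∀ x ∈ L, σ x = x) → ∀ c : HH m N,
      actG N m σ (actG N m (g * i0)⁻¹ (thetaM N m c)) =
        actG N m (g * i0)⁻¹ (thetaM N m c) := by
    intro σ hσ c
    refine hLx _ σ fun x hx => hσ x (hL1 c ?_)
    exact (le_sup_right : Lx (actG N m (g * i0)⁻¹ (thetaM N m c)) ≤ L1 c) hx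
  obtain ⟨ℓ, hℓ, hℓN, hℓS, j, h1, h2, h3⟩ := step m hmS ρ π hchar
    (IsLocalRing.maximalIdeal T ^ n) L g hLρ' hΘ0 hΘ1 ζ hζ.pow_eq_one hζL
  obtain ⟨ℓ', hℓ', hℓN', hℓS', j', h1', h2', h3'⟩ := step m hmS ρ π hchar
    (IsLocalRing.maximalIdeal T ^ n) L (g * i0) hLρ' hΘ0 hΘ2 ζ hζ.pow_eq_one hζL
  -- comparison of the cyclotomic characters
  have hmod : ℓ ^ j ≡ ℓ' ^ j' [MOD m] := by
    have e : ζ ^ (ℓ ^ j) = ζ ^ (ℓ' ^ j') := by
      rw [← h3, ← h3', AlgEquiv.mul_apply,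
        inertia_apply_root P hP hq hqm hi0 ζ hζ.pow_eq_one]
    obtain ⟨u, rfl⟩ := hζ.isUnit (NeZero.ne m)
    rw [← Units.val_pow_eq_pow_val, ← Units.val_pow_eq_pow_val, Units.val_inj,
      pow_eq_pow_iff_modEq, ← orderOf_units, ← hζ.eq_orderOf] at e
    exact e
  -- the two operators agree on `HH m N`
  have hagree : ∀ c : HH m N, aeval (TZ N m ℓ) (lucPoly ℓ j) c =
      aeval (TZ N m ℓ') (lucPoly ℓ' j') c := by
    intro c
    apply thetaM_injective N m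
    rw [h2 c, h2' c]
    have e1 : actG N m (g * i0) (thetaM N m c) = actG N m g (thetaM N m c) := by
      have := thetaM_inertia N m hq hqN hqm P hP i0 hi0 c 1
      rw [map_one, Module.End.one_apply] at this
      rw [map_mul, Module.End.mul_apply, this]
    have e2 : actG N m (g * i0)⁻¹ (thetaM N m c) = actG N m g⁻¹ (thetaM N m c) := by
      have := thetaM_inertia N m hq hqN hqm P hP i0⁻¹ (inv_mem hi0) c g⁻¹
      rw [mul_inv_rev, map_mul, Module.End.mul_apply, this]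
    rw [e1, e2]
    congr 1
    have := zsmul_eq_of_modEq m hmod (actG N m g⁻¹ (thetaM N m c))
    push_cast at this
    exact this
  haveI : Fact ℓ.Prime := ⟨hℓ⟩
  haveI : Fact ℓ'.Prime := ⟨hℓ'⟩
  subst hm
  obtain ⟨w, hw⟩ := ha n ℓ ℓ' hℓN hℓN' hℓS hℓS' (lucPoly ℓ j) (lucPoly ℓ' j') (by
    intro c hc
    have := congrArg Subtype.val (hagree ⟨c, hc⟩)
    rw [coe_aeval_TZ _ _ hℓN, coe_aeval_TZ _ _ hℓN'] at this
    exact this)
  have h4 : π (aeval (heckeAlgebra.T (k := 2) hℓ hℓN hℓS) (lucPoly ℓ j)) -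
      π (aeval (heckeAlgebra.T (k := 2) hℓ' hℓN' hℓS') (lucPoly ℓ' j')) ∈
      IsLocalRing.maximalIdeal T ^ n := by
    rw [← map_sub, hw, map_zsmul, zsmul_eq_mul]
    push_cast
    exact Ideal.mul_mem_right _ _ (Ideal.pow_mem_pow hpT n)
  have h5 := sub_mem (sub_mem h1 h1') h4
  have e : LinearMap.trace T ρ.V (ρ.ρ (g * i0)) - LinearMap.trace T ρ.V (ρ.ρ g) =
      π (aeval (heckeAlgebra.T (k := 2) hℓ hℓN hℓS) (lucPoly ℓ j)) -
        LinearMap.trace T ρ.V (ρ.ρ g) -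
      (π (aeval (heckeAlgebra.T (k := 2) hℓ' hℓN' hℓS') (lucPoly ℓ' j')) -
        LinearMap.trace T ρ.V (ρ.ρ (g * i0))) -
      (π (aeval (heckeAlgebra.T (k := 2) hℓ hℓN hℓS) (lucPoly ℓ j)) -
      π (aeval (heckeAlgebra.T (k := 2) hℓ' hℓN' hℓS') (lucPoly ℓ' j'))) := by ring
  rw [e]
  exact h5

end Fermat.Agent.S31
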