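import Mathlib
import Fermat.Prelude.Def_CuspForm_HeckeGaloisRepDatum
import Fermat.Agent.S29.HomSplit
import Fermat.Agent.S29.AlgPack

set_option autoImplicit false

/-! # S30 / S31: shared definitions and the interfaces between the blocks -/

namespace Fermat.Agent.S31

open Polynomial Fermat.Agent.S29 Fermat.Agent.S29.Cyc

/-- the Lucas polynomials: `Luc ℓ b (x + ℓ / x) = x ^ b + ℓ ^ b / x ^ b`. -/
noncomputable def Luc (ℓ : ℕ) : ℕ → ℤ[X]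
  | 0 => 2
  | 1 => X
  | (b + 2) => X * Luc ℓ (b + 1) - C (ℓ : ℤ) * Luc ℓ b

theorem Luc_zero (ℓ : ℕ) : Luc ℓ 0 = 2 := by rw [Luc]

theorem Luc_one (ℓ : ℕ) : Luc ℓ 1 = X := by rw [Luc]

theorem Luc_succ_succ (ℓ b : ℕ) :
    Luc ℓ (b + 2) = X * Luc ℓ (b + 1) - C (ℓ : ℤ) * Luc ℓ b := by rw [Luc]

theorem exists_zetam (m : ℕ) [NeZero m] : ∃ ζ : Qb, IsPrimitiveRoot ζ m :=
  HasEnoughRootsOfUnity.exists_primitiveRoot Qb m

/-- a primitive `m`-th root of unity. -/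
noncomputable def zetam (m : ℕ) [NeZero m] : Qb := (exists_zetam m).choose

theorem zetam_spec (m : ℕ) [NeZero m] : IsPrimitiveRoot (zetam m) m := (exists_zetam m).choose_spec

/-- the cyclotomic character modulo `m`. -/
noncomputable def cycm (m : ℕ) [NeZero m] : GQ →* (ZMod m)ˣ := (zetam_spec m).autToPow ℚ

theorem cycm_spec (m : ℕ) [NeZero m] (σ : GQ) :
    zetam m ^ (cycm m σ : ZMod m).val = σ (zetam m) :=
  (zetam_spec m).autToPow_spec ℚ σ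

/-- **Interface [A1]**: the Galois module generated by the theta classes modulo `m`. -/
def GlueStmt (N m : ℕ) : Prop :=
  ∃ (X : Type) (_ : AddCommGroup X) (_ : Module (ZMod m) X)
    (act : GQ →* Module.End (ZMod m) X) (Θ : HH m N →ₗ[ZMod m] X),
    Function.Injective Θ ∧
    (∀ c : HH m N, ∃ L : IntermediateField ℚ Qb, FiniteDimensional ℚ L ∧
      ∀ σ : GQ, (∀ x ∈ L, σ x = x) → act σ (Θ c) = Θ c) ∧
    (∀ ℓ : ℕ, ℓ.Prime → ¬ ℓ ∣ N * m → ∀ A : ValuationSubring Qb, A.LiesOverPrime ℓ →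
      ∀ σ : GQ, A.IsFrobeniusAt σ ℓ → ∀ (c : HH m N) (τ : GQ),
        act σ (act σ (act τ (Θ c))) - act σ (act τ (Θ (TH m N ℓ c)))
          + (ℓ : ZMod m) • act τ (Θ c) = 0) ∧
    (∀ ℓ : ℕ, ℓ.Prime → ¬ ℓ ∣ N * m → ∀ A : ValuationSubring Qb, A.LiesOverPrime ℓ →
      ∀ σ ∈ A.inertiaSubgroupIn ℚ, ∀ (c : HH m N) (τ : GQ), act σ (act τ (Θ c)) = act τ (Θ c))

/-- **Interface [A3]**: the pseudo-character modulo `m` with values in `End (HH m N)`. -/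
def LevelStmt (N m : ℕ) [NeZero m] : Prop :=
  ∃ (L : IntermediateField ℚ Qb) (_ : FiniteDimensional ℚ L)
    (t : GQ → Module.End (ZMod m) (HH m N)),
    (∀ g g' : GQ, (∀ x ∈ L, g x = g' x) → t g = t g') ∧
    (∀ ℓ : ℕ, ℓ.Prime → ¬ ℓ ∣ N * m → ∀ A : ValuationSubring Qb, A.LiesOverPrime ℓ →
      ∀ σ : GQ, A.IsFrobeniusAt σ ℓ → ∀ b : ℕ, t (σ ^ b) = aeval (TH m N ℓ) (Luc ℓ b)) ∧
    (∀ g h : GQ, t (g * h) + ((cycm m h : (ZMod m)ˣ) : ZMod m) • t (g * h⁻¹) = t g * t h) ∧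
    (∀ g h : GQ, t (g * h) = t (h * g)) ∧
    (∀ ℓ : ℕ, ℓ.Prime → ¬ ℓ ∣ N * m → ∀ A : ValuationSubring Qb, A.LiesOverPrime ℓ →
      ∀ i ∈ A.inertiaSubgroupIn ℚ, ∀ g : GQ, t (g * i) = t g)

/-- the correspondence between the Hecke algebra on cusp forms and the Hecke operators on
`HH m N`. -/
def Corr (N : ℕ) [NeZero N] (S : Set ℕ) (m : ℕ) :
    Subalgebra ℤ (CuspForm.heckeAlgebra N 2 S × Module.End (ZMod m) (HH m N)) :=
  Algebra.adjoin ℤ {x | ∃ (ℓ : ℕ) (hℓ : ℓ.Prime) (hℓN : ¬ ℓ ∣ N) (hℓS : ℓ ∉ S),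
    x = (CuspForm.heckeAlgebra.T hℓ hℓN hℓS, TH m N ℓ)}

/-- **Interface [B]**: an element of the Hecke algebra killing `HH (p ^ n) N` is divisible by
`p ^ (n - a)`. -/
def SatStmt (N : ℕ) [NeZero N] (S : Set ℕ) (p : ℕ) : Prop :=
  ∃ a : ℕ, ∀ (n : ℕ) (t : CuspForm.heckeAlgebra N 2 S), (t, 0) ∈ Corr N S (p ^ n) →
    ((p : CuspForm.heckeAlgebra N 2 S) ^ (n - a)) ∣ t

/-- **Interface [PS]**: the pseudo-character modulo `p ^ n` with values in the Hecke algebra. -/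
def PsStmt (N : ℕ) [NeZero N] (S : Set ℕ) (p : ℕ) [NeZero p] : Prop :=
  ∀ n : ℕ, ∃ (L : IntermediateField ℚ Qb) (_ : FiniteDimensional ℚ L)
    (t : GQ → CuspForm.heckeAlgebra N 2 S),
    (∀ g g' : GQ, (∀ x ∈ L, g x = g' x) → ((p : CuspForm.heckeAlgebra N 2 S) ^ n) ∣ t g - t g') ∧
    (∀ (ℓ : ℕ) (hℓ : ℓ.Prime) (hℓN : ¬ ℓ ∣ N) (hℓS : ℓ ∉ S), ℓ ≠ p →
      ∀ A : ValuationSubring Qb, A.LiesOverPrime ℓ →
      ∀ σ : GQ, A.IsFrobeniusAt σ ℓ → ∀ b : ℕ, ((p : CuspForm.heckeAlgebra N 2 S) ^ n) ∣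
        t (σ ^ b) - aeval (CuspForm.heckeAlgebra.T hℓ hℓN hℓS) (Luc ℓ b)) ∧
    (∀ g h : GQ, ((p : CuspForm.heckeAlgebra N 2 S) ^ n) ∣
      t (g * h) + ((cycm (p ^ n) h : (ZMod (p ^ n))ˣ) : ZMod (p ^ n)).val • t (g * h⁻¹)
        - t g * t h) ∧
    (∀ g h : GQ, ((p : CuspForm.heckeAlgebra N 2 S) ^ n) ∣ t (g * h) - t (h * g)) ∧
    (∀ q : ℕ, q.Prime → ¬ q ∣ N → q ≠ p → ∀ A : ValuationSubring Qb, A.LiesOverPrime q →
      ∀ i ∈ A.inertiaSubgroupIn ℚ, ∀ g : GQ,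
        ((p : CuspForm.heckeAlgebra N 2 S) ^ n) ∣ t (g * i) - t g)

end Fermat.Agent.S31
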