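import Mathlib
import Fermat.Agent.S29.PeriodEig

set_option autoImplicit false
set_option linter.style.haveILetI false

/-! # S31: the period map is Hecke equivariant (all cusp forms) -/

namespace Fermat.Agent.S31

open CongruenceSubgroup Matrix.SpecialLinearGroup UpperHalfPlane ModularFormClass ModularCurve
  ModularCurve.Period
open scoped MatrixGroups ModularForm
open P2MW.S_ModularForm_heckeT_slash_eq_self_of_mem_Gamma0.ModularForm.HeckeSlashInvariance
open Fermat.Agent.S29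

variable {N : ℕ}

/-- the period map intertwines `T_l` on cusp forms and `heckeHom` on homomorphisms. -/
theorem heckeHom_periodMap_gen [NeZero N] (g : CuspForm (Gamma0 N) 2)
    {l : ℕ} [Fact l.Prime] (hl : l.Prime) (hlN : ¬ l ∣ N) :
    heckeHom hlN (periodMap N g) = periodMap N (CuspForm.heckeTLin 2 hl hlN g) := by
  obtain ⟨F, hF⟩ := Fermat.Agent.S21.exists_hasEquivariantPrimitive N g
  obtain ⟨F', hF'⟩ := Fermat.Agent.S21.exists_hasEquivariantPrimitive N
    (CuspForm.heckeTLin 2 hl hlN g)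
  set Φ : ℍ → ℂ := fun z => ∑ x : OnePoint (ZMod l), F (heckeRep l x • z) with hΦ
  have hΦd : ∀ τ : ℍ, HasDerivAt (Φ ∘ ofComplex) (CuspForm.heckeTLin 2 hl hlN g τ) ↑τ := by
    intro τ
    have h1 : HasDerivAt (fun w : ℂ => ∑ x : OnePoint (ZMod l),
        ((fun w : ℍ => F (heckeRep l x • w)) ∘ ofComplex) w)
        (∑ x : OnePoint (ZMod l), ((⇑g) ∣[(2 : ℤ)] heckeRep l x) τ) ↑τ :=
      HasDerivAt.fun_sum fun x _ => hasDerivAt_comp_GL F g hF.1 _ (det_heckeRep_pos l x) τ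
    have h2 : (∑ x : OnePoint (ZMod l), ((⇑g) ∣[(2 : ℤ)] heckeRep l x) τ) =
        CuspForm.heckeTLin 2 hl hlN g τ := by
      rw [CuspForm.heckeTLin_apply_apply, heckeT_eq_sum_onePoint, Finset.sum_apply]
    rw [h2] at h1
    exact h1
  obtain ⟨C, hC⟩ := Fermat.Agent.S21.exists_const_of_hasDerivAt_eq Φ F'
    (fun τ => CuspForm.heckeTLin 2 hl hlN g τ) hΦd hF'.1
  refine AddMonoidHom.ext fun γ => ?_
  obtain ⟨γ, rfl⟩ := Additive.ofMul.surjective γ
  rw [heckeHom_apply, Fermat.Agent.S21.periodMap_apply hF' γ UpperHalfPlane.I]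
  have h5 : ∀ x : OnePoint (ZMod l), periodMap N g (Additive.ofMul (hdelta hlN γ x)) =
      F (heckeRep l x • ((γ : SL(2, ℤ)) • UpperHalfPlane.I)) -
        F (heckeRep l (redMatrix l (γ : SL(2, ℤ)) • x) • UpperHalfPlane.I) := by
    intro x
    rw [Fermat.Agent.S21.periodMap_apply hF (hdelta hlN γ x)
      (heckeRep l (redMatrix l (γ : SL(2, ℤ)) • x) • UpperHalfPlane.I)]
    congr 2
    change mapGL ℝ (hdelta hlN γ x : SL(2, ℤ)) •
        (heckeRep l (redMatrix l (γ : SL(2, ℤ)) • x) • UpperHalfPlane.I) =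
      heckeRep l x • (mapGL ℝ (γ : SL(2, ℤ)) • UpperHalfPlane.I)
    rw [← mul_smul, ← mul_smul, hdelta_spec]
  rw [Finset.sum_congr rfl fun x _ => h5 x, Finset.sum_sub_distrib]
  have h6 : ∑ x : OnePoint (ZMod l),
      F (heckeRep l (redMatrix l (γ : SL(2, ℤ)) • x) • UpperHalfPlane.I) = Φ UpperHalfPlane.I :=
    Equiv.sum_comp (MulAction.toPerm (redMatrix l (γ : SL(2, ℤ))))
      (fun x => F (heckeRep l x • UpperHalfPlane.I))
  rw [h6]
  have h7 := hC ((γ : SL(2, ℤ)) • UpperHalfPlane.I)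
  have h8 := hC UpperHalfPlane.I
  show Φ ((γ : SL(2, ℤ)) • UpperHalfPlane.I) - Φ UpperHalfPlane.I = _
  linear_combination h7 - h8

end Fermat.Agent.S31
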